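/-
Project S35, cell **[ABEL-EQ]** (helper19): abstract lemmas for the `Φ`-equivariance part of [ABEL].
Prefix `s35eq_`.  Mathlib + `S35/Toric/Composite` only.

* `s35eq_unit_div`        : `V` a discrete valuation ring of `F`, `Φ` an automorphism of `F` preserving
                            `V` ⟹ `Φ g / g` is a unit of `V` for every `g ≠ 0`;
* `s35eq_norm_semilinear` : `N_{E/E'} (Φ g) = Φ' (N_{E/E'} g)` for compatible automorphisms;
* `s35eq_norm_div`        : `N g = c r^m ⟹ N (Φ g / g) = (Φ' c / c) (Φ' r / r)^m`;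
* `s35eq_factor`          : **the factor form of (H-DIV)**: from the composite-valuation form
                            (conclusion of `tori_sfdi_leg` / `tori_sfdi_hes`) to
                            `r G = ω e^m`, `ω` a unit of an arbitrary valuation ring `𝒪` of the residue
                            field `κ` of `V` containing the constants with algebraic residue field.
-/
import Mathlib
import Fermat.Agent.S35.Toric.Composite

set_option autoImplicit false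
set_option linter.unusedSectionVars false
set_option linter.unusedVariables false
set_option linter.style.haveILetI false

namespace Fermat.Agent.S35

open IsLocalRing Polynomial

/-! ### `Φ g / g` is a unit -/

section Unit

variable {F : Type*} [Field F] (V : ValuationSubring F) (Φ : F ≃+* F)
  (hΦ : ∀ z : F, Φ z ∈ V ↔ z ∈ V)

/-- the restriction of an automorphism preserving `V` to `V`. -/
def s35eq_restr : ↥V ≃+* ↥V where
  toFun z := ⟨Φ z, (hΦ z).2 z.2⟩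
  invFun z := ⟨Φ.symm z, (hΦ _).1 (by rw [Φ.apply_symm_apply]; exact z.2)⟩
  left_inv z := Subtype.ext (Φ.symm_apply_apply _)
  right_inv z := Subtype.ext (Φ.apply_symm_apply _)
  map_mul' a b := Subtype.ext (map_mul Φ _ _)
  map_add' a b := Subtype.ext (map_add Φ _ _)

theorem s35eq_restr_coe (z : ↥V) : ((s35eq_restr V Φ hΦ z : ↥V) : F) = Φ z := rfl

/-- a unit of the valuation ring, in the "membership" spelling. -/
theorem s35eq_unit_of_units (u : (↥V)ˣ) :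
    ((u : ↥V) : F) ∈ V ∧ ((u : ↥V) : F) ∉ V.nonunits := by
  refine ⟨(u : ↥V).2, fun h => ?_⟩
  have h1 : (u : ↥V) ∈ maximalIdeal ↥V := (ValuationSubring.coe_mem_nonunits_iff).1 h
  exact (mem_maximalIdeal _).1 h1 u.isUnit

/-- in a discrete valuation ring, an automorphism maps every nonzero element to an associate. -/
theorem s35eq_associated [IsDiscreteValuationRing ↥V] (x : ↥V) (hx : x ≠ 0) :
    Associated (s35eq_restr V Φ hΦ x) x := by
  obtain ⟨ϖ, hϖ⟩ := IsDiscreteValuationRing.exists_irreducible ↥V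
  obtain ⟨n, u, rfl⟩ := IsDiscreteValuationRing.eq_unit_mul_pow_irreducible hx hϖ
  have h1 : Irreducible (s35eq_restr V Φ hΦ ϖ) :=
    (MulEquiv.irreducible_iff (s35eq_restr V Φ hΦ)).2 hϖ
  have h2 : Associated (s35eq_restr V Φ hΦ ϖ) ϖ :=
    IsDiscreteValuationRing.associated_of_irreducible ↥V h1 hϖ
  have h3 : Associated (s35eq_restr V Φ hΦ (u : ↥V)) (u : ↥V) :=
    (associated_one_iff_isUnit.2 (u.isUnit.map (s35eq_restr V Φ hΦ))).trans
      (associated_one_iff_isUnit.2 u.isUnit).symm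
  rw [map_mul, map_pow]
  exact h3.mul_mul (h2.pow_pow)

include hΦ in
/-- **`Φ g / g` is a unit of `V`.** -/
theorem s35eq_unit_div [IsDiscreteValuationRing ↥V] {g : F} (hg : g ≠ 0) :
    Φ g / g ∈ V ∧ Φ g / g ∉ V.nonunits := by
  have hΦg : Φ g ≠ 0 := (map_ne_zero Φ).2 hg
  rcases V.mem_or_inv_mem g with h | h
  · have hx : (⟨g, h⟩ : ↥V) ≠ 0 := fun h0 => hg (congrArg Subtype.val h0)
    obtain ⟨u, hu⟩ := s35eq_associated V Φ hΦ ⟨g, h⟩ hx
    have hu' : Φ g * ((u : ↥V) : F) = g := congrArg Subtype.val hu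
    have e : Φ g / g = ((u⁻¹ : (↥V)ˣ) : ↥V) := by
      have h1 : ((u : ↥V) : F) * (((u⁻¹ : (↥V)ˣ) : ↥V) : F) = 1 :=
        congrArg Subtype.val (u.mul_inv)
      rw [div_eq_iff hg]
      calc Φ g = Φ g * (((u : ↥V) : F) * (((u⁻¹ : (↥V)ˣ) : ↥V) : F)) := by rw [h1, mul_one]
        _ = (((u⁻¹ : (↥V)ˣ) : ↥V) : F) * (Φ g * ((u : ↥V) : F)) := by ring
        _ = (((u⁻¹ : (↥V)ˣ) : ↥V) : F) * g := by rw [hu']
    rw [e]
    exact s35eq_unit_of_units V u⁻¹
  · have hg' : g⁻¹ ≠ 0 := inv_ne_zero hg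
    have hx : (⟨g⁻¹, h⟩ : ↥V) ≠ 0 := fun h0 => hg' (congrArg Subtype.val h0)
    obtain ⟨u, hu⟩ := s35eq_associated V Φ hΦ ⟨g⁻¹, h⟩ hx
    have hu' : Φ g⁻¹ * ((u : ↥V) : F) = g⁻¹ := congrArg Subtype.val hu
    have e : Φ g / g = ((u : ↥V) : F) := by
      rw [map_inv₀] at hu'
      rw [div_eq_mul_inv, ← hu', ← mul_assoc, mul_inv_cancel₀ hΦg, one_mul]
    rw [e]
    exact s35eq_unit_of_units V u

include hΦ in
/-- the same at the conjugate valuation ring `V.comap W`, `W` commuting with `Φ`. -/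
theorem s35eq_unit_div_comap [IsDiscreteValuationRing ↥V] (W : F ≃+* F)
    (hcomm : ∀ z, W (Φ z) = Φ (W z)) {g : F} (hg : g ≠ 0) :
    Φ g / g ∈ V.comap (W : F →+* F) ∧ Φ g / g ∉ (V.comap (W : F →+* F)).nonunits := by
  have hWg : W g ≠ 0 := (map_ne_zero W).2 hg
  obtain ⟨h1, h2⟩ := s35eq_unit_div V Φ hΦ hWg
  have e : W (Φ g / g) = Φ (W g) / W g := by rw [map_div₀, hcomm]
  refine ⟨?_, fun h => h2 ?_⟩
  · show W (Φ g / g) ∈ V
    rw [e]; exact h1
  · rw [ValuationSubring.mem_nonunits_iff_or] at h ⊢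
    rcases h with h | h
    · left
      rw [← e, h, map_zero]
    · right
      intro h'
      apply h
      show W ((Φ g / g)⁻¹) ∈ V
      rw [map_inv₀, e]
      exact h'

end Unit

/-! ### norms -/

section Norm

variable {E' E : Type*} [Field E'] [Field E] [Algebra E' E] (Φ' : E' ≃+* E') (Φ : E ≃+* E)
  (hcompat : ∀ a : E', Φ (algebraMap E' E a) = algebraMap E' E (Φ' a))

include hcompat in
/-- the norm commutes with compatible automorphisms. -/
theorem s35eq_norm_semilinear (g : E) : Algebra.norm E' (Φ g) = Φ' (Algebra.norm E' g) := by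
  have h := Algebra.norm_eq_of_equiv_equiv Φ' Φ
    (RingHom.ext fun a => (hcompat a).symm) g
  rw [h, RingEquiv.apply_symm_apply]

include hcompat in
/-- `N g = c r^m ⟹ N (Φ g / g) = (Φ' c / c) (Φ' r / r)^m`. -/
theorem s35eq_norm_div {g : E} (hg : g ≠ 0) {c r : E'} {m : ℕ}
    (h : Algebra.norm E' g = c * r ^ m) :
    Algebra.norm E' (Φ g / g) = (Φ' c / c) * (Φ' r / r) ^ m := by
  have hN0 : Algebra.norm E' g ≠ 0 := by
    by_cases hfin : ∃ s : Finset E, Nonempty (Module.Basis s E' E)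
    · obtain ⟨s, ⟨b⟩⟩ := hfin
      haveI : Module.Finite E' E := Module.Finite.of_basis b
      exact Algebra.norm_ne_zero_iff.2 hg
    · rw [Algebra.norm_eq_one_of_not_exists_basis _ hfin]
      exact one_ne_zero
  have h1 : Algebra.norm E' (Φ g / g) * Algebra.norm E' g = Algebra.norm E' (Φ g) := by
    rw [← map_mul, div_mul_cancel₀ _ hg]
  rw [eq_div_of_mul_eq hN0 h1, s35eq_norm_semilinear Φ' Φ hcompat, h, map_mul, map_pow, div_pow,
    mul_div_mul_comm]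

end Norm

/-! ### the factor form of (H-DIV) -/

section Factor

variable {F : Type*} [Field F] (V : ValuationSubring F) {κ : Type*} [Field κ]
  (r : ↥V →+* κ) (hker : ∀ z : ↥V, (z : F) ∈ V.nonunits → r z = 0)
  {O k : Type*} [CommRing O] [Field k] [Algebra O F] [Algebra k κ]
  (ρ : O →+* k) (hρ : Function.Surjective ρ)
  (hOV : ∀ a : O, algebraMap O F a ∈ V)
  (hrO : ∀ a : O, r ⟨algebraMap O F a, hOV a⟩ = algebraMap k κ (ρ a))

include hρ hrO hker in
/-- **factor form**: if `G` factors as `ω e^m` with `e` a unit of `V` and `ω` a unit of `𝒱`, for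
every composite valuation ring `𝒱 ≤ V` containing `O` with residue field algebraic over `O`, then
`r G = ω' e'^m` with `ω'` a unit of `𝒪`, for every valuation ring `𝒪` of `κ` containing `k` with
residue field algebraic over `k`. -/
theorem s35eq_factor (m : ℕ) {G : F} (hGV : G ∈ V)
    (hdiv : ∀ 𝒱 : ValuationSubring F, 𝒱 ≤ V → (∀ a : O, algebraMap O F a ∈ 𝒱) →
      (∀ z ∈ 𝒱, ∃ p : O[X], p.Monic ∧ aeval z p ∈ 𝒱.nonunits) →
      ∃ e ω : F, G = ω * e ^ m ∧ (e ∈ V ∧ e ∉ V.nonunits) ∧ (ω ∈ 𝒱 ∧ ω ∉ 𝒱.nonunits))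
    (𝒪 : ValuationSubring κ) (hk : ∀ c : k, algebraMap k κ c ∈ 𝒪)
    (halg𝒪 : ∀ z ∈ 𝒪, ∃ p : k[X], p.Monic ∧ aeval z p ∈ 𝒪.nonunits) :
    ∃ ω e : κ, r ⟨G, hGV⟩ = ω * e ^ m ∧ ω ∈ 𝒪 ∧ ω⁻¹ ∈ 𝒪 := by
  set 𝒱 := tori_comp V r hker 𝒪 with h𝒱def
  have h𝒱 : 𝒱 ≤ V := tori_comp_le V r hker 𝒪
  have hA : ∀ a : O, algebraMap O F a ∈ 𝒱 := fun a =>
    ⟨hOV a, by rw [hrO]; exact hk _⟩
  -- the ring homomorphism `O → V`
  let ι : O →+* ↥V :=
    { toFun := fun a => ⟨algebraMap O F a, hOV a⟩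
      map_one' := Subtype.ext (map_one _)
      map_mul' := fun a b => Subtype.ext (map_mul _ a b)
      map_zero' := Subtype.ext (map_zero _)
      map_add' := fun a b => Subtype.ext (map_add _ a b) }
  have hι1 : V.subtype.comp ι = algebraMap O F := RingHom.ext fun a => rfl
  have hι2 : r.comp ι = (algebraMap k κ).comp ρ := RingHom.ext fun a => hrO a
  have halg : ∀ z ∈ 𝒱, ∃ p : O[X], p.Monic ∧ aeval z p ∈ 𝒱.nonunits := by
    rintro z ⟨hzV, hzW⟩
    obtain ⟨pb, hpb, hpbW⟩ := halg𝒪 _ hzW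
    obtain ⟨P, hPmap, -, hPm⟩ := Polynomial.lifts_and_degree_eq_and_monic
      ((Polynomial.mem_lifts _).2 (Polynomial.map_surjective ρ hρ pb)) hpb
    refine ⟨P, hPm, ?_⟩
    have h1 : ((eval₂ ι ⟨z, hzV⟩ P : ↥V) : F) = aeval z P := by
      have := Polynomial.hom_eval₂ P ι V.subtype ⟨z, hzV⟩
      rw [hι1] at this
      rw [aeval_def]
      exact this
    have h2 : r (eval₂ ι ⟨z, hzV⟩ P) = aeval (r ⟨z, hzV⟩) pb := by
      rw [Polynomial.hom_eval₂, hι2, ← Polynomial.eval₂_map, hPmap, aeval_def]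
    rw [tori_comp_mem_nonunits_iff]
    refine ⟨h1 ▸ (eval₂ ι ⟨z, hzV⟩ P).2, ?_⟩
    have h3 : (⟨aeval z P, h1 ▸ (eval₂ ι ⟨z, hzV⟩ P).2⟩ : ↥V) = eval₂ ι ⟨z, hzV⟩ P :=
      Subtype.ext h1.symm
    rw [h3, h2]
    exact hpbW
  obtain ⟨e, ω, hGω, ⟨he1, he2⟩, hω1, hω2⟩ := hdiv 𝒱 h𝒱 hA halg
  obtain ⟨hωW, hωnu⟩ := tori_comp_unit V r hker 𝒪 hω1 hω2
  refine ⟨r ⟨ω, hω1.1⟩, r ⟨e, he1⟩, ?_, hωW, ?_⟩
  · rw [← map_pow, ← map_mul]
    congr 1
    exact Subtype.ext hGω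
  · rcases 𝒪.mem_or_inv_mem (r ⟨ω, hω1.1⟩) with h | h
    · by_contra hni
      exact hωnu ((ValuationSubring.mem_nonunits_iff_or _).2 (Or.inr hni))
    · exact h

end Factor

/-! ### transfer of (H-DIV) to the conjugate valuation ring -/

section Comap

variable {F : Type*} [Field F] (V : ValuationSubring F) (W : F ≃+* F)

theorem s35eq_nonunits_comap (x : F) :
    x ∈ (V.comap (W : F →+* F)).nonunits ↔ W x ∈ V.nonunits := by
  rw [ValuationSubring.mem_nonunits_iff_or, ValuationSubring.mem_nonunits_iff_or]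
  constructor
  · rintro (h | h)
    · left
      rw [h, map_zero]
    · right
      intro h'
      apply h
      show W x⁻¹ ∈ V
      rw [map_inv₀]
      exact h'
  · rintro (h | h)
    · left
      exact (map_eq_zero_iff W W.injective).1 h
    · right
      intro h'
      apply h
      have : W x⁻¹ ∈ V := h'
      rwa [map_inv₀] at this

/-- the composite-valuation form of (H-DIV) at `V.comap W` for `G` gives the one at `V` for `W G`
(`W` an automorphism fixing the base ring `O`). -/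
theorem s35eq_hdiv_comap {O : Type*} [CommRing O] [Algebra O F]
    (hWO : ∀ a : O, W (algebraMap O F a) = algebraMap O F a) (m : ℕ) {G : F}
    (hdiv : ∀ 𝒱 : ValuationSubring F, 𝒱 ≤ V.comap (W : F →+* F) →
      (∀ a : O, algebraMap O F a ∈ 𝒱) →
      (∀ z ∈ 𝒱, ∃ p : O[X], p.Monic ∧ aeval z p ∈ 𝒱.nonunits) →
      ∃ e ω : F, G = ω * e ^ m ∧
        (e ∈ V.comap (W : F →+* F) ∧ e ∉ (V.comap (W : F →+* F)).nonunits) ∧
        (ω ∈ 𝒱 ∧ ω ∉ 𝒱.nonunits)) :
    ∀ 𝒱 : ValuationSubring F, 𝒱 ≤ V → (∀ a : O, algebraMap O F a ∈ 𝒱) →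
      (∀ z ∈ 𝒱, ∃ p : O[X], p.Monic ∧ aeval z p ∈ 𝒱.nonunits) →
      ∃ e ω : F, W G = ω * e ^ m ∧ (e ∈ V ∧ e ∉ V.nonunits) ∧ (ω ∈ 𝒱 ∧ ω ∉ 𝒱.nonunits) := by
  intro 𝒱 h𝒱 hA halg
  have h1 : 𝒱.comap (W : F →+* F) ≤ V.comap (W : F →+* F) := fun x hx => by
    have hx' : W x ∈ 𝒱 := hx
    exact (h𝒱 hx' : W x ∈ V)
  have h2 : ∀ a : O, algebraMap O F a ∈ 𝒱.comap (W : F →+* F) := fun a => by
    show W (algebraMap O F a) ∈ 𝒱
    rw [hWO]
    exact hA a
  have h3 : ∀ z ∈ 𝒱.comap (W : F →+* F),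
      ∃ p : O[X], p.Monic ∧ aeval z p ∈ (𝒱.comap (W : F →+* F)).nonunits := by
    intro z hz
    obtain ⟨p, hp, hpz⟩ := halg (W z) hz
    refine ⟨p, hp, ?_⟩
    rw [s35eq_nonunits_comap]
    let Wa : F →ₐ[O] F := { (W : F →+* F) with commutes' := hWO }
    have e : W (aeval z p) = aeval (W z) p := (Polynomial.aeval_algHom_apply Wa z p).symm
    rw [e]
    exact hpz
  obtain ⟨e, ω, hG, ⟨he1, he2⟩, hω1, hω2⟩ := hdiv _ h1 h2 h3
  exact ⟨W e, W ω, by rw [hG, map_mul, map_pow],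
    ⟨he1, fun h => he2 ((s35eq_nonunits_comap V W e).2 h)⟩,
    hω1, fun h => hω2 ((s35eq_nonunits_comap 𝒱 W ω).2 h)⟩

end Comap

/-! ### transport of the factor form along an equality of fields -/

section Transfer

variable {k M : Type*} [Field k] [Field M] [Algebra k M]

theorem s35eq_factor_transfer {K1 K2 : IntermediateField k M} (h : K1 = K2) (m : ℕ) (u : M)
    (hu1 : u ∈ K1) (hu2 : u ∈ K2)
    (H : ∀ 𝒪 : ValuationSubring ↥K1, (∀ c : k, algebraMap k ↥K1 c ∈ 𝒪) →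
      (∀ z ∈ 𝒪, ∃ p : k[X], p.Monic ∧ aeval z p ∈ 𝒪.nonunits) →
      ∃ ω e : ↥K1, (⟨u, hu1⟩ : ↥K1) = ω * e ^ m ∧ ω ∈ 𝒪 ∧ ω⁻¹ ∈ 𝒪) :
    ∀ 𝒪 : ValuationSubring ↥K2, (∀ c : k, algebraMap k ↥K2 c ∈ 𝒪) →
      (∀ z ∈ 𝒪, ∃ p : k[X], p.Monic ∧ aeval z p ∈ 𝒪.nonunits) →
      ∃ ω e : ↥K2, (⟨u, hu2⟩ : ↥K2) = ω * e ^ m ∧ ω ∈ 𝒪 ∧ ω⁻¹ ∈ 𝒪 := by
  subst h
  exact H

end Transfer

end Fermat.Agent.S35
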