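/-
Project S35, cell **[ABEL-EQ]**, LEGENDRE tower (helper19).  Prefix `s35eq_`.

`Φ := ssm_sg_aut (N' q) σ` the coefficient action of `σ : L ≃+* L` on `E = lg_E L (N' q)`,
`G := Φ g / g`.

* `s35eq_leg_newAt` : `s35_NewAt … m g → s35_NewAt … m (Φ g / g)` (any `σ`);
* `s35eq_leg_unit`  : `σ` a Frobenius lift at `O` (`s35nf_FrobAt O σ q`), `g ≠ 0` ⟹ `Φ g / g` is a unit
                      at `V₁` and at `V₂`; `s35eq_leg_unit_W` : the same for `W (Φ g / g)`;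
* `s35eq_leg_hfac`  : **the factor form of (H-DIV) on the residue field**: `L` a number field
                      `∋ ζ_{N'}`, `q` a uniformiser of `O`; for `G` a unit at `V₁`, `V₂` with all
                      orders divisible by `m`, `u₁ := red G`, `u₂ := red (W G)` (`red = gq_res O L`),
                      `κ' := s35kp_kappa O hπ (lg_E L N') _` and every valuation ring `𝒪` of `κ'`
                      containing the constants with algebraic residue field: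
                      `u_i = ω e^m` with `ω, ω⁻¹ ∈ 𝒪`  (= `hfac₁`, `hfac₂` of helper13's
                      `s35bf_leg`).  Input `hκ : κ(E) ≤ κ'` (the residue field of `V₁` is that of the
                      Gauss valuation of `E' = lg_E L N'`).
-/
import Mathlib
import Fermat.Agent.S35.AbelEq.Abs
import Fermat.Agent.S35.Toric.SFDInstLeg
import Fermat.Agent.S35.Kappa.Defs
import Fermat.Agent.S35.TauInst.Leg
import Fermat.Agent.S35.Seams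
import Fermat.Prelude.Def_AlgebraicCurve_BaseChangeGalois

set_option autoImplicit false
set_option linter.style.haveILetI false
set_option linter.unusedSectionVars false
set_option linter.unusedVariables false

noncomputable section

namespace Fermat.Agent.S35

open Fermat.Agent.SS Fermat.Agent.JT3 IntermediateField ModularCurve IsLocalRing AlgebraicCurve
  Polynomial

/-! ### orders of `Φ g / g` -/

section Ord

variable {K : Type*} {F : Type*} [Field K] [Field F] [Algebra K F]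

/-- `m ∣ ord_P g` for all places ⟹ `m ∣ ord_P (τ g / g)` for all places, `τ` semilinear. -/
theorem s35eq_dvd_ord_div (τ : F ≃+* F) (τK : K ≃+* K)
    (hτK : ∀ a : K, τ (algebraMap K F a) = algebraMap K F (τK a)) (m : ℤ) {g : F} (hg : g ≠ 0)
    (hord : ∀ P : Place K F, m ∣ P.ord g) (P : Place K F) : m ∣ P.ord (τ g / g) := by
  let Gs : SemilinearAut K F := ⟨(τ, τK), hτK⟩
  have h := SemilinearAut.ord_smul Gs (Gs⁻¹ • P) g
  rw [smul_inv_smul] at h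
  have e : Gs • g = τ g := rfl
  have hτg : τ g ≠ 0 := (_root_.map_ne_zero τ).2 hg
  rw [div_eq_mul_inv, P.ord_mul hτg (inv_ne_zero hg), P.ord_inv, ← e, h]
  exact dvd_add (hord _) ((dvd_neg).2 (hord _))

end Ord

section Tower

variable {L : Type*} [Field L] [CharZero L] [Algebra L (AlgebraicClosure ℚ)]
variable (N' q : ℕ) [NeZero N'] [NeZero q] [hq : Fact q.Prime]
  (hq2 : ¬ 2 ∣ q) (hqN' : ¬ q ∣ N')
variable (σ : L ≃+* L)

/-- `Φ` on `E` restricts to `Φ'` on `E'`. -/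
theorem s35eq_leg_compat (a : ↥(lg_E L N')) :
    letI := ssm_gi_algebra (ssm_al_E_le L N' q)
    ssm_sg_aut (N' * q) σ (algebraMap ↥(lg_E L N') ↥(lg_E L (N' * q)) a) =
      algebraMap ↥(lg_E L N') ↥(lg_E L (N' * q)) (ssm_sg_aut N' σ a) := by
  letI := ssm_gi_algebra (ssm_al_E_le L N' q)
  apply Subtype.ext
  rw [ssm_sg_aut_coe, ssm_gi_coe_algebraMap, ssm_gi_coe_algebraMap, ssm_sg_aut_coe]

/-- the norm of `Φ g / g`. -/
theorem s35eq_leg_norm_div {g : ↥(lg_E L (N' * q))} (hg : g ≠ 0) {m : ℕ}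
    (h : ∃ (c : L) (r : ↥(lg_E L N')), r ≠ 0 ∧
      s35_normE N' q g = algebraMap L ↥(lg_E L N') c * r ^ m) :
    ∃ (c : L) (r : ↥(lg_E L N')), r ≠ 0 ∧
      s35_normE N' q (ssm_sg_aut (N' * q) σ g / g) = algebraMap L ↥(lg_E L N') c * r ^ m := by
  obtain ⟨c, r, hr, hN⟩ := h
  refine ⟨σ c / c, ssm_sg_aut N' σ r / r,
    div_ne_zero ((_root_.map_ne_zero (ssm_sg_aut N' σ)).2 hr) hr, ?_⟩
  letI := ssm_gi_algebra (ssm_al_E_le L N' q)
  have h1 := s35eq_norm_div (ssm_sg_aut N' σ) (ssm_sg_aut (N' * q) σ)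
    (s35eq_leg_compat N' q σ) hg (c := algebraMap L ↥(lg_E L N') c) (r := r) (m := m) hN
  rw [ssm_sg_aut_algebraMap, ← map_div₀] at h1
  exact h1

/-- **(E1)** `s35_NewAt` is inherited by `Φ g / g`. -/
theorem s35eq_leg_newAt {m : ℕ} {g : ↥(lg_E L (N' * q))}
    (h : s35_NewAt N' q hq2 hqN' m g) :
    s35_NewAt N' q hq2 hqN' m (ssm_sg_aut (N' * q) σ g / g) := by
  obtain ⟨hg, hord, hA, hB⟩ := h
  have hΦg : ssm_sg_aut (N' * q) σ g ≠ 0 := (_root_.map_ne_zero _).2 hg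
  refine ⟨div_ne_zero hΦg hg, ?_, s35eq_leg_norm_div N' q σ hg hA, ?_⟩
  · exact s35eq_dvd_ord_div (ssm_sg_aut (N' * q) σ) σ (ssm_sg_aut_algebraMap (N' * q) σ)
      (m : ℤ) hg hord
  · have hWg : ssm_gl_W L N' q hq2 hqN' g ≠ 0 := (_root_.map_ne_zero _).2 hg
    have e : ssm_gl_W L N' q hq2 hqN' (ssm_sg_aut (N' * q) σ g / g) =
        ssm_sg_aut (N' * q) σ (ssm_gl_W L N' q hq2 hqN' g) / ssm_gl_W L N' q hq2 hqN' g := by
      rw [map_div₀]
      congr 1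
      exact ssm_sgw_comm L N' q hq.out hq2 hqN' σ g
    rw [e]
    exact s35eq_leg_norm_div N' q σ hWg hB

end Tower

section Units

variable {L : Type*} [Field L] [CharZero L] [Algebra L (AlgebraicClosure ℚ)]
  (O : ValuationSubring L) [IsDiscreteValuationRing O] {π : O} (hπ : Irreducible π)
variable (N' q : ℕ) [NeZero N'] [NeZero q] [hq : Fact q.Prime] [CharP (ResidueField O) q]
  (hq2 : ¬ 2 ∣ q) (hqN' : ¬ q ∣ N')
variable (σ : L ≃+* L) (hσ : s35nf_FrobAt O σ q)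

include hσ in
/-- **(E2)** `Φ g / g` is a unit at both Gauss valuations. -/
theorem s35eq_leg_unit {g : ↥(lg_E L (N' * q))} (hg : g ≠ 0) :
    (ssm_sg_aut (N' * q) σ g / g ∈ ssm_gl_V1 O hπ N' q ∧
      ssm_sg_aut (N' * q) σ g / g ∉ (ssm_gl_V1 O hπ N' q).nonunits) ∧
    (ssm_sg_aut (N' * q) σ g / g ∈ ssm_gl_V2 O hπ N' q hq2 hqN' ∧
      ssm_sg_aut (N' * q) σ g / g ∉ (ssm_gl_V2 O hπ N' q hq2 hqN').nonunits) := by
  haveI : IsDiscreteValuationRing ↥(ssm_gl_V1 O hπ N' q) :=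
    ssm_ga_isDVR π hπ.ne_zero hπ.maximalIdeal_eq _ _
  have hΦ : ∀ z : ↥(lg_E L (N' * q)),
      ssm_sg_aut (N' * q) σ z ∈ ssm_gl_V1 O hπ N' q ↔ z ∈ ssm_gl_V1 O hπ N' q :=
    s35ti_gauss_mem π hπ.ne_zero hπ.maximalIdeal_eq _ _ hσ (ssm_sg_aut (N' * q) σ)
      (fun _ => rfl)
  exact ⟨s35eq_unit_div (ssm_gl_V1 O hπ N' q) (ssm_sg_aut (N' * q) σ) hΦ hg,
    s35eq_unit_div_comap (ssm_gl_V1 O hπ N' q) (ssm_sg_aut (N' * q) σ) hΦ
      (ssm_gl_W L N' q hq2 hqN') (fun z => ssm_sgw_comm L N' q hq.out hq2 hqN' σ z) hg⟩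

include hσ in
/-- the same for `W (Φ g / g)`. -/
theorem s35eq_leg_unit_W {g : ↥(lg_E L (N' * q))} (hg : g ≠ 0) :
    (ssm_gl_W L N' q hq2 hqN' (ssm_sg_aut (N' * q) σ g / g) ∈ ssm_gl_V1 O hπ N' q ∧
      ssm_gl_W L N' q hq2 hqN' (ssm_sg_aut (N' * q) σ g / g) ∉
        (ssm_gl_V1 O hπ N' q).nonunits) ∧
    (ssm_gl_W L N' q hq2 hqN' (ssm_sg_aut (N' * q) σ g / g) ∈ ssm_gl_V2 O hπ N' q hq2 hqN' ∧
      ssm_gl_W L N' q hq2 hqN' (ssm_sg_aut (N' * q) σ g / g) ∉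
        (ssm_gl_V2 O hπ N' q hq2 hqN').nonunits) := by
  have hWg : ssm_gl_W L N' q hq2 hqN' g ≠ 0 := (_root_.map_ne_zero _).2 hg
  have e : ssm_gl_W L N' q hq2 hqN' (ssm_sg_aut (N' * q) σ g / g) =
      ssm_sg_aut (N' * q) σ (ssm_gl_W L N' q hq2 hqN' g) / ssm_gl_W L N' q hq2 hqN' g := by
    rw [map_div₀]
    congr 1
    exact ssm_sgw_comm L N' q hq.out hq2 hqN' σ g
  rw [e]
  exact s35eq_leg_unit O hπ N' q hq2 hqN' σ hσ hWg

end Units

/-! ### (E3) the factor form of (H-DIV) on the residue field -/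

section Kappa

variable {L : Type*} [Field L] (O : ValuationSubring L) [IsDiscreteValuationRing O] {π : O}
  (hπ : Irreducible π)

/-- the residue field of the Gauss valuation is monotone in the field. -/
theorem s35eq_kappa_mono {E' E : IntermediateField L (LaurentSeries L)} (hle : E' ≤ E)
    (hE' : E' ≤ gq_quotField O L) (hE : E ≤ gq_quotField O L) :
    s35kp_kappa O hπ E' hE' ≤ s35kp_kappa O hπ E hE := by
  rintro y ⟨z, rfl⟩
  exact s35kp_mem_kappa_of_bdd O hπ E hE (hle (z : ↥E').2) z.2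

end Kappa

section HFac

variable (L : Type) [Field L] [NumberField L] [Algebra L (AlgebraicClosure ℚ)]
  (O : ValuationSubring L) [IsDiscreteValuationRing O]
variable (N' q : ℕ) [NeZero N'] [NeZero q] [hq : Fact q.Prime] [CharP (ResidueField O) q]
  (hq2 : ¬ 2 ∣ q) (hqN' : ¬ q ∣ N') (hπ : Irreducible ((q : ℕ) : ↥O))
  (ζ : L) (hζ : IsPrimitiveRoot ζ N')

include hζ in
set_option synthInstance.maxHeartbeats 400000 in
set_option maxHeartbeats 1600000 in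
/-- **(E3), on `κ(E)`**: the factor form for `red G` and `red (W G)`, `red = s35kp_red` on
`V₁ = ssm_gl_V1` (`= s35kp_V O hπ (lg_E L (N' q)) _`). -/
theorem s35eq_leg_hfacE (m : ℕ) {G : ↥(lg_E L (N' * q))} (hG : G ≠ 0)
    (hord : ∀ P : Place L ↥(lg_E L (N' * q)), (m : ℤ) ∣ P.ord G)
    (hG1 : G ∈ ssm_gl_V1 O hπ N' q ∧ G ∉ (ssm_gl_V1 O hπ N' q).nonunits)
    (hG2 : G ∈ ssm_gl_V2 O hπ N' q hq2 hqN' ∧ G ∉ (ssm_gl_V2 O hπ N' q hq2 hqN').nonunits) :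
    (∀ 𝒪 : ValuationSubring
        ↥(s35kp_kappa O hπ (lg_E L (N' * q)) (ssm_ga_E_le_quotField O (N' * q))),
      (∀ c : ResidueField O, algebraMap (ResidueField O)
        ↥(s35kp_kappa O hπ (lg_E L (N' * q)) (ssm_ga_E_le_quotField O (N' * q))) c ∈ 𝒪) →
      (∀ z ∈ 𝒪, ∃ p : (ResidueField O)[X], p.Monic ∧ aeval z p ∈ 𝒪.nonunits) →
      ∃ ω e : ↥(s35kp_kappa O hπ (lg_E L (N' * q)) (ssm_ga_E_le_quotField O (N' * q))),
        s35kp_red O hπ (lg_E L (N' * q)) (ssm_ga_E_le_quotField O (N' * q)) ⟨G, hG1.1⟩ =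
          ω * e ^ m ∧ ω ∈ 𝒪 ∧ ω⁻¹ ∈ 𝒪) ∧
    (∀ 𝒪 : ValuationSubring
        ↥(s35kp_kappa O hπ (lg_E L (N' * q)) (ssm_ga_E_le_quotField O (N' * q))),
      (∀ c : ResidueField O, algebraMap (ResidueField O)
        ↥(s35kp_kappa O hπ (lg_E L (N' * q)) (ssm_ga_E_le_quotField O (N' * q))) c ∈ 𝒪) →
      (∀ z ∈ 𝒪, ∃ p : (ResidueField O)[X], p.Monic ∧ aeval z p ∈ 𝒪.nonunits) →
      ∃ ω e : ↥(s35kp_kappa O hπ (lg_E L (N' * q)) (ssm_ga_E_le_quotField O (N' * q))),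
        s35kp_red O hπ (lg_E L (N' * q)) (ssm_ga_E_le_quotField O (N' * q))
          ⟨ssm_gl_W L N' q hq2 hqN' G, hG2.1⟩ = ω * e ^ m ∧ ω ∈ 𝒪 ∧ ω⁻¹ ∈ 𝒪) := by
  haveI := ssm_go_isScalarTower O (lg_E L (N' * q))
  obtain ⟨hd1, hd2⟩ := tori_sfdi_leg L O N' q hq2 hqN' hπ ζ hζ m hG hord hG1 hG2
  have hker : ∀ z : ↥(ssm_gl_V1 O hπ N' q),
      (z : ↥(lg_E L (N' * q))) ∈ (ssm_gl_V1 O hπ N' q).nonunits →
      s35kp_red O hπ (lg_E L (N' * q)) (ssm_ga_E_le_quotField O (N' * q)) z = 0 :=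
    fun z hz => (s35kp_red_eq_zero_iff O hπ _ _ z).2 hz
  have hOV : ∀ a : ↥O, algebraMap ↥O ↥(lg_E L (N' * q)) a ∈ ssm_gl_V1 O hπ N' q := fun a =>
    gq_algebraMap_mem_valSubOf _ hπ.ne_zero hπ.maximalIdeal_eq _ _ a
  have hrO : ∀ a : ↥O,
      s35kp_red O hπ (lg_E L (N' * q)) (ssm_ga_E_le_quotField O (N' * q))
          ⟨algebraMap ↥O ↥(lg_E L (N' * q)) a, hOV a⟩ =
        algebraMap (ResidueField O)
          ↥(s35kp_kappa O hπ (lg_E L (N' * q)) (ssm_ga_E_le_quotField O (N' * q)))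
          (residue ↥O a) :=
    fun a => s35kp_red_const O hπ _ _ a
  have hWO : ∀ a : ↥O, ssm_gl_W L N' q hq2 hqN' (algebraMap ↥O ↥(lg_E L (N' * q)) a) =
      algebraMap ↥O ↥(lg_E L (N' * q)) a := fun a => by
    rw [IsScalarTower.algebraMap_apply ↥O L ↥(lg_E L (N' * q))]
    exact (ssm_al_WE L N' q hq.out hq2 hqN').commutes _
  refine ⟨fun 𝒪 hk halg => ?_, fun 𝒪 hk halg => ?_⟩
  · exact s35eq_factor (ssm_gl_V1 O hπ N' q)
      (s35kp_red O hπ (lg_E L (N' * q)) (ssm_ga_E_le_quotField O (N' * q))) hker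
      (residue ↥O) residue_surjective hOV hrO m hG1.1 hd1 𝒪 hk halg
  · exact s35eq_factor (ssm_gl_V1 O hπ N' q)
      (s35kp_red O hπ (lg_E L (N' * q)) (ssm_ga_E_le_quotField O (N' * q))) hker
      (residue ↥O) residue_surjective hOV hrO m hG2.1
      (s35eq_hdiv_comap (ssm_gl_V1 O hπ N' q) (ssm_gl_W L N' q hq2 hqN') hWO m hd2) 𝒪 hk halg

include hζ in
set_option synthInstance.maxHeartbeats 400000 in
set_option maxHeartbeats 1600000 in
/-- **(E3)**: `hfac₁`, `hfac₂` of helper13's `s35bf_leg`, VERBATIM (`u₁ := gq_res O L ⟨G, _⟩`,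
`u₂ := gq_res O L ⟨W G, _⟩`, `κ' := s35kp_kappa O hπ (lg_E L N') _`), given `hκ : κ(E) ≤ κ'`. -/
theorem s35eq_leg_hfac (m : ℕ) {G : ↥(lg_E L (N' * q))} (hG : G ≠ 0)
    (hord : ∀ P : Place L ↥(lg_E L (N' * q)), (m : ℤ) ∣ P.ord G)
    (hG1 : G ∈ ssm_gl_V1 O hπ N' q ∧ G ∉ (ssm_gl_V1 O hπ N' q).nonunits)
    (hG2 : G ∈ ssm_gl_V2 O hπ N' q hq2 hqN' ∧ G ∉ (ssm_gl_V2 O hπ N' q hq2 hqN').nonunits)
    (hκ : s35kp_kappa O hπ (lg_E L (N' * q)) (ssm_ga_E_le_quotField O (N' * q)) ≤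
      s35kp_kappa O hπ (lg_E L N') (ssm_ga_E_le_quotField O N'))
    (hb1 : gq_IsBdd O L ((G : ↥(lg_E L (N' * q))) : LaurentSeries L))
    (hb2 : gq_IsBdd O L
      ((ssm_gl_W L N' q hq2 hqN' G : ↥(lg_E L (N' * q))) : LaurentSeries L))
    (hu1 : gq_res O L ⟨((G : ↥(lg_E L (N' * q))) : LaurentSeries L), hb1⟩ ∈
      s35kp_kappa O hπ (lg_E L N') (ssm_ga_E_le_quotField O N'))
    (hu2 : gq_res O L
        ⟨((ssm_gl_W L N' q hq2 hqN' G : ↥(lg_E L (N' * q))) : LaurentSeries L), hb2⟩ ∈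
      s35kp_kappa O hπ (lg_E L N') (ssm_ga_E_le_quotField O N')) :
    (∀ 𝒪 : ValuationSubring ↥(s35kp_kappa O hπ (lg_E L N') (ssm_ga_E_le_quotField O N')),
      (∀ c : ResidueField O, algebraMap (ResidueField O)
        ↥(s35kp_kappa O hπ (lg_E L N') (ssm_ga_E_le_quotField O N')) c ∈ 𝒪) →
      (∀ z ∈ 𝒪, ∃ p : (ResidueField O)[X], p.Monic ∧ aeval z p ∈ 𝒪.nonunits) →
      ∃ ω e : ↥(s35kp_kappa O hπ (lg_E L N') (ssm_ga_E_le_quotField O N')),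
        (⟨gq_res O L ⟨((G : ↥(lg_E L (N' * q))) : LaurentSeries L), hb1⟩, hu1⟩ :
          ↥(s35kp_kappa O hπ (lg_E L N') (ssm_ga_E_le_quotField O N'))) = ω * e ^ m ∧
        ω ∈ 𝒪 ∧ ω⁻¹ ∈ 𝒪) ∧
    (∀ 𝒪 : ValuationSubring ↥(s35kp_kappa O hπ (lg_E L N') (ssm_ga_E_le_quotField O N')),
      (∀ c : ResidueField O, algebraMap (ResidueField O)
        ↥(s35kp_kappa O hπ (lg_E L N') (ssm_ga_E_le_quotField O N')) c ∈ 𝒪) →
      (∀ z ∈ 𝒪, ∃ p : (ResidueField O)[X], p.Monic ∧ aeval z p ∈ 𝒪.nonunits) →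
      ∃ ω e : ↥(s35kp_kappa O hπ (lg_E L N') (ssm_ga_E_le_quotField O N')),
        (⟨gq_res O L
            ⟨((ssm_gl_W L N' q hq2 hqN' G : ↥(lg_E L (N' * q))) : LaurentSeries L), hb2⟩, hu2⟩ :
          ↥(s35kp_kappa O hπ (lg_E L N') (ssm_ga_E_le_quotField O N'))) = ω * e ^ m ∧
        ω ∈ 𝒪 ∧ ω⁻¹ ∈ 𝒪) := by
  have heq : s35kp_kappa O hπ (lg_E L (N' * q)) (ssm_ga_E_le_quotField O (N' * q)) =
      s35kp_kappa O hπ (lg_E L N') (ssm_ga_E_le_quotField O N') :=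
    le_antisymm hκ (s35eq_kappa_mono O hπ (ssm_al_E_le L N' q) _ _)
  obtain ⟨h1, h2⟩ := s35eq_leg_hfacE L O N' q hq2 hqN' hπ ζ hζ m hG hord hG1 hG2
  exact ⟨s35eq_factor_transfer heq m _ ⟨⟨G, hG1.1⟩, rfl⟩ hu1 h1,
    s35eq_factor_transfer heq m _ ⟨⟨ssm_gl_W L N' q hq2 hqN' G, hG2.1⟩, rfl⟩ hu2 h2⟩

end HFac

end Fermat.Agent.S35
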