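/-
Project S35, cell **[ABEL-EQ]**, HESSE tower (helper19).  Prefix `s35eq_`.  Verbatim twin of
`AbelEq/Leg.lean`.

`Φ := ssm_sgh_aut h3 (N' q) σ` the coefficient action of `σ : L ≃+* L` on `E = hs_E L h3 (N' q)`,
`G := Φ g / g`, `W = ssm_fh_W`, `V₁ V₂ = ssm_fh_V1 / ssm_fh_V2`.

* `s35eq_hes_newAt` : `s35h_NewAt … m g → s35h_NewAt … m (Φ g / g)` (any `σ`);
* `s35eq_hes_unit`  : `σ` a Frobenius lift at `O`, `g ≠ 0` ⟹ `Φ g / g` is a unit at `V₁` and `V₂`;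
                      `s35eq_hes_unit_W` : the same for `W (Φ g / g)`;
* `s35eq_hes_hfacE`, `s35eq_hes_hfac` : the factor form of (H-DIV) on the residue field
                      (`hfac₁`, `hfac₂` of helper13's Hesse twin), given `hκ : κ(E) ≤ κ'`.
-/
import Mathlib
import Fermat.Agent.S35.AbelEq.Leg
import Fermat.Agent.S35.Toric.SFDInstHes
import Fermat.Agent.S35.TauInst.Hes
import Fermat.Agent.S35.SeamsHes

set_option autoImplicit false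
set_option linter.style.haveILetI false
set_option linter.unusedSectionVars false
set_option linter.unusedVariables false

noncomputable section

namespace Fermat.Agent.S35

open Fermat.Agent.SS Fermat.Agent.JT3 IntermediateField ModularCurve IsLocalRing AlgebraicCurve
  Polynomial

section Tower

variable {L : Type*} [Field L] [CharZero L] [Algebra L (AlgebraicClosure ℚ)] (h3 : (3 : L) ≠ 0)
variable (N' q : ℕ) [NeZero N'] [NeZero q] [hq : Fact q.Prime]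
  (hq3 : ¬ 3 ∣ q) (hqN' : ¬ q ∣ N')
variable (σ : L ≃+* L)

/-- `Φ` on `E` restricts to `Φ'` on `E'`. -/
theorem s35eq_hes_compat (a : ↥(hs_E L h3 N')) :
    letI := ssm_gi_algebra (ssm_alh_E_le L h3 (ssm_fh_hF9 h3) N' q)
    ssm_sgh_aut h3 (N' * q) σ (algebraMap ↥(hs_E L h3 N') ↥(hs_E L h3 (N' * q)) a) =
      algebraMap ↥(hs_E L h3 N') ↥(hs_E L h3 (N' * q)) (ssm_sgh_aut h3 N' σ a) := by
  letI := ssm_gi_algebra (ssm_alh_E_le L h3 (ssm_fh_hF9 h3) N' q)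
  apply Subtype.ext
  rw [ssm_sgh_aut_coe, ssm_gi_coe_algebraMap, ssm_gi_coe_algebraMap, ssm_sgh_aut_coe]

/-- the norm of `Φ g / g`. -/
theorem s35eq_hes_norm_div {g : ↥(hs_E L h3 (N' * q))} (hg : g ≠ 0) {m : ℕ}
    (h : ∃ (c : L) (r : ↥(hs_E L h3 N')), r ≠ 0 ∧
      s35h_normE h3 N' q g = algebraMap L ↥(hs_E L h3 N') c * r ^ m) :
    ∃ (c : L) (r : ↥(hs_E L h3 N')), r ≠ 0 ∧
      s35h_normE h3 N' q (ssm_sgh_aut h3 (N' * q) σ g / g) =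
        algebraMap L ↥(hs_E L h3 N') c * r ^ m := by
  obtain ⟨c, r, hr, hN⟩ := h
  refine ⟨σ c / c, ssm_sgh_aut h3 N' σ r / r,
    div_ne_zero ((_root_.map_ne_zero (ssm_sgh_aut h3 N' σ)).2 hr) hr, ?_⟩
  letI := ssm_gi_algebra (ssm_alh_E_le L h3 (ssm_fh_hF9 h3) N' q)
  have h1 := s35eq_norm_div (ssm_sgh_aut h3 N' σ) (ssm_sgh_aut h3 (N' * q) σ)
    (s35eq_hes_compat h3 N' q σ) hg (c := algebraMap L ↥(hs_E L h3 N') c) (r := r) (m := m) hN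
  rw [ssm_sgh_aut_algebraMap, ← map_div₀] at h1
  exact h1

/-- **(E1)** `s35h_NewAt` is inherited by `Φ g / g`. -/
theorem s35eq_hes_newAt {m : ℕ} {g : ↥(hs_E L h3 (N' * q))}
    (h : s35h_NewAt h3 N' q hq3 hqN' m g) :
    s35h_NewAt h3 N' q hq3 hqN' m (ssm_sgh_aut h3 (N' * q) σ g / g) := by
  obtain ⟨hg, hord, hA, hB⟩ := h
  have hΦg : ssm_sgh_aut h3 (N' * q) σ g ≠ 0 := (_root_.map_ne_zero _).2 hg
  refine ⟨div_ne_zero hΦg hg, ?_, s35eq_hes_norm_div h3 N' q σ hg hA, ?_⟩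
  · exact s35eq_dvd_ord_div (ssm_sgh_aut h3 (N' * q) σ) σ (ssm_sgh_aut_algebraMap h3 (N' * q) σ)
      (m : ℤ) hg hord
  · have hWg : ssm_fh_W h3 N' q hq3 hqN' g ≠ 0 := (_root_.map_ne_zero _).2 hg
    have e : ssm_fh_W h3 N' q hq3 hqN' (ssm_sgh_aut h3 (N' * q) σ g / g) =
        ssm_sgh_aut h3 (N' * q) σ (ssm_fh_W h3 N' q hq3 hqN' g) /
          ssm_fh_W h3 N' q hq3 hqN' g := by
      rw [map_div₀]
      congr 1
      exact ssm_sgw_comm_hes L h3 (ssm_fh_hF9 h3) N' q hq.out hq3 hqN' σ g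
    rw [e]
    exact s35eq_hes_norm_div h3 N' q σ hWg hB

end Tower

section Units

variable {L : Type*} [Field L] [CharZero L] [Algebra L (AlgebraicClosure ℚ)] (h3 : (3 : L) ≠ 0)
  (O : ValuationSubring L) [IsDiscreteValuationRing O] (h3O : IsUnit (3 : O)) {π : O}
  (hπ : Irreducible π)
variable (N' q : ℕ) [NeZero N'] [NeZero q] [hq : Fact q.Prime] [CharP (ResidueField O) q]
  (hq3 : ¬ 3 ∣ q) (hqN' : ¬ q ∣ N')
variable (σ : L ≃+* L) (hσ : s35nf_FrobAt O σ q)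

include hσ in
/-- **(E2)** `Φ g / g` is a unit at both Gauss valuations. -/
theorem s35eq_hes_unit {g : ↥(hs_E L h3 (N' * q))} (hg : g ≠ 0) :
    (ssm_sgh_aut h3 (N' * q) σ g / g ∈ ssm_fh_V1 h3 O h3O hπ N' q ∧
      ssm_sgh_aut h3 (N' * q) σ g / g ∉ (ssm_fh_V1 h3 O h3O hπ N' q).nonunits) ∧
    (ssm_sgh_aut h3 (N' * q) σ g / g ∈ ssm_fh_V2 h3 O h3O hπ N' q hq3 hqN' ∧
      ssm_sgh_aut h3 (N' * q) σ g / g ∉ (ssm_fh_V2 h3 O h3O hπ N' q hq3 hqN').nonunits) := by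
  haveI : IsDiscreteValuationRing ↥(ssm_fh_V1 h3 O h3O hπ N' q) :=
    ssm_ga_isDVR π hπ.ne_zero hπ.maximalIdeal_eq _ _
  have hΦ : ∀ z : ↥(hs_E L h3 (N' * q)),
      ssm_sgh_aut h3 (N' * q) σ z ∈ ssm_fh_V1 h3 O h3O hπ N' q ↔
        z ∈ ssm_fh_V1 h3 O h3O hπ N' q :=
    s35ti_gauss_mem π hπ.ne_zero hπ.maximalIdeal_eq _ _ hσ (ssm_sgh_aut h3 (N' * q) σ)
      (fun _ => rfl)
  exact ⟨s35eq_unit_div (ssm_fh_V1 h3 O h3O hπ N' q) (ssm_sgh_aut h3 (N' * q) σ) hΦ hg,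
    s35eq_unit_div_comap (ssm_fh_V1 h3 O h3O hπ N' q) (ssm_sgh_aut h3 (N' * q) σ) hΦ
      (ssm_fh_W h3 N' q hq3 hqN')
      (fun z => ssm_sgw_comm_hes L h3 (ssm_fh_hF9 h3) N' q hq.out hq3 hqN' σ z) hg⟩

include hσ in
/-- the same for `W (Φ g / g)`. -/
theorem s35eq_hes_unit_W {g : ↥(hs_E L h3 (N' * q))} (hg : g ≠ 0) :
    (ssm_fh_W h3 N' q hq3 hqN' (ssm_sgh_aut h3 (N' * q) σ g / g) ∈
        ssm_fh_V1 h3 O h3O hπ N' q ∧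
      ssm_fh_W h3 N' q hq3 hqN' (ssm_sgh_aut h3 (N' * q) σ g / g) ∉
        (ssm_fh_V1 h3 O h3O hπ N' q).nonunits) ∧
    (ssm_fh_W h3 N' q hq3 hqN' (ssm_sgh_aut h3 (N' * q) σ g / g) ∈
        ssm_fh_V2 h3 O h3O hπ N' q hq3 hqN' ∧
      ssm_fh_W h3 N' q hq3 hqN' (ssm_sgh_aut h3 (N' * q) σ g / g) ∉
        (ssm_fh_V2 h3 O h3O hπ N' q hq3 hqN').nonunits) := by
  have hWg : ssm_fh_W h3 N' q hq3 hqN' g ≠ 0 := (_root_.map_ne_zero _).2 hg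
  have e : ssm_fh_W h3 N' q hq3 hqN' (ssm_sgh_aut h3 (N' * q) σ g / g) =
      ssm_sgh_aut h3 (N' * q) σ (ssm_fh_W h3 N' q hq3 hqN' g) /
        ssm_fh_W h3 N' q hq3 hqN' g := by
    rw [map_div₀]
    congr 1
    exact ssm_sgw_comm_hes L h3 (ssm_fh_hF9 h3) N' q hq.out hq3 hqN' σ g
  rw [e]
  exact s35eq_hes_unit h3 O h3O hπ N' q hq3 hqN' σ hσ hWg

end Units

/-! ### (E3) the factor form of (H-DIV) on the residue field -/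

section HFac

variable (L : Type) [Field L] [NumberField L] [Algebra L (AlgebraicClosure ℚ)]
  (h3 : (3 : L) ≠ 0) (O : ValuationSubring L) [IsDiscreteValuationRing O] (h3O : IsUnit (3 : O))
variable (N' q : ℕ) [NeZero N'] [NeZero q] [hq : Fact q.Prime] [CharP (ResidueField O) q]
  (hq3 : ¬ 3 ∣ q) (hqN' : ¬ q ∣ N') (hπ : Irreducible ((q : ℕ) : ↥O))
  (ζ : L) (hζ : IsPrimitiveRoot ζ (3 * N'))

include hζ in
set_option synthInstance.maxHeartbeats 400000 in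
set_option maxHeartbeats 1600000 in
/-- **(E3), on `κ(E)`**, Hesse tower. -/
theorem s35eq_hes_hfacE (m : ℕ) {G : ↥(hs_E L h3 (N' * q))} (hG : G ≠ 0)
    (hord : ∀ P : Place L ↥(hs_E L h3 (N' * q)), (m : ℤ) ∣ P.ord G)
    (hG1 : G ∈ ssm_fh_V1 h3 O h3O hπ N' q ∧ G ∉ (ssm_fh_V1 h3 O h3O hπ N' q).nonunits)
    (hG2 : G ∈ ssm_fh_V2 h3 O h3O hπ N' q hq3 hqN' ∧
      G ∉ (ssm_fh_V2 h3 O h3O hπ N' q hq3 hqN').nonunits) :
    (∀ 𝒪 : ValuationSubring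
        ↥(s35kp_kappa O hπ (hs_E L h3 (N' * q)) (hsa_E_le_quotField h3 O (N' * q) h3O)),
      (∀ c : ResidueField O, algebraMap (ResidueField O)
        ↥(s35kp_kappa O hπ (hs_E L h3 (N' * q)) (hsa_E_le_quotField h3 O (N' * q) h3O)) c ∈ 𝒪) →
      (∀ z ∈ 𝒪, ∃ p : (ResidueField O)[X], p.Monic ∧ aeval z p ∈ 𝒪.nonunits) →
      ∃ ω e : ↥(s35kp_kappa O hπ (hs_E L h3 (N' * q)) (hsa_E_le_quotField h3 O (N' * q) h3O)),
        s35kp_red O hπ (hs_E L h3 (N' * q)) (hsa_E_le_quotField h3 O (N' * q) h3O) ⟨G, hG1.1⟩ =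
          ω * e ^ m ∧ ω ∈ 𝒪 ∧ ω⁻¹ ∈ 𝒪) ∧
    (∀ 𝒪 : ValuationSubring
        ↥(s35kp_kappa O hπ (hs_E L h3 (N' * q)) (hsa_E_le_quotField h3 O (N' * q) h3O)),
      (∀ c : ResidueField O, algebraMap (ResidueField O)
        ↥(s35kp_kappa O hπ (hs_E L h3 (N' * q)) (hsa_E_le_quotField h3 O (N' * q) h3O)) c ∈ 𝒪) →
      (∀ z ∈ 𝒪, ∃ p : (ResidueField O)[X], p.Monic ∧ aeval z p ∈ 𝒪.nonunits) →
      ∃ ω e : ↥(s35kp_kappa O hπ (hs_E L h3 (N' * q)) (hsa_E_le_quotField h3 O (N' * q) h3O)),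
        s35kp_red O hπ (hs_E L h3 (N' * q)) (hsa_E_le_quotField h3 O (N' * q) h3O)
          ⟨ssm_fh_W h3 N' q hq3 hqN' G, hG2.1⟩ = ω * e ^ m ∧ ω ∈ 𝒪 ∧ ω⁻¹ ∈ 𝒪) := by
  haveI := ssm_go_isScalarTower O (hs_E L h3 (N' * q))
  obtain ⟨hd1, hd2⟩ := tori_sfdi_hes L h3 O h3O N' q hq3 hqN' hπ ζ hζ m hG hord hG1 hG2
  have hker : ∀ z : ↥(ssm_fh_V1 h3 O h3O hπ N' q),
      (z : ↥(hs_E L h3 (N' * q))) ∈ (ssm_fh_V1 h3 O h3O hπ N' q).nonunits →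
      s35kp_red O hπ (hs_E L h3 (N' * q)) (hsa_E_le_quotField h3 O (N' * q) h3O) z = 0 :=
    fun z hz => (s35kp_red_eq_zero_iff O hπ _ _ z).2 hz
  have hOV : ∀ a : ↥O, algebraMap ↥O ↥(hs_E L h3 (N' * q)) a ∈ ssm_fh_V1 h3 O h3O hπ N' q :=
    fun a => gq_algebraMap_mem_valSubOf _ hπ.ne_zero hπ.maximalIdeal_eq _ _ a
  have hrO : ∀ a : ↥O,
      s35kp_red O hπ (hs_E L h3 (N' * q)) (hsa_E_le_quotField h3 O (N' * q) h3O)
          ⟨algebraMap ↥O ↥(hs_E L h3 (N' * q)) a, hOV a⟩ =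
        algebraMap (ResidueField O)
          ↥(s35kp_kappa O hπ (hs_E L h3 (N' * q)) (hsa_E_le_quotField h3 O (N' * q) h3O))
          (residue ↥O a) :=
    fun a => s35kp_red_const O hπ _ _ a
  have hWO : ∀ a : ↥O, ssm_fh_W h3 N' q hq3 hqN' (algebraMap ↥O ↥(hs_E L h3 (N' * q)) a) =
      algebraMap ↥O ↥(hs_E L h3 (N' * q)) a := fun a => by
    rw [IsScalarTower.algebraMap_apply ↥O L ↥(hs_E L h3 (N' * q))]
    exact (ssm_alh_WE L h3 (ssm_fh_hF9 h3) N' q hq.out hq3 hqN').commutes _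
  refine ⟨fun 𝒪 hk halg => ?_, fun 𝒪 hk halg => ?_⟩
  · exact s35eq_factor (ssm_fh_V1 h3 O h3O hπ N' q)
      (s35kp_red O hπ (hs_E L h3 (N' * q)) (hsa_E_le_quotField h3 O (N' * q) h3O)) hker
      (residue ↥O) residue_surjective hOV hrO m hG1.1 hd1 𝒪 hk halg
  · exact s35eq_factor (ssm_fh_V1 h3 O h3O hπ N' q)
      (s35kp_red O hπ (hs_E L h3 (N' * q)) (hsa_E_le_quotField h3 O (N' * q) h3O)) hker
      (residue ↥O) residue_surjective hOV hrO m hG2.1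
      (s35eq_hdiv_comap (ssm_fh_V1 h3 O h3O hπ N' q) (ssm_fh_W h3 N' q hq3 hqN') hWO m hd2)
      𝒪 hk halg

include hζ in
set_option synthInstance.maxHeartbeats 400000 in
set_option maxHeartbeats 1600000 in
/-- **(E3)**, Hesse tower: `hfac₁`, `hfac₂` (`u₁ := gq_res O L ⟨G, _⟩`, `u₂ := gq_res O L ⟨W G, _⟩`,
`κ' := s35kp_kappa O hπ (hs_E L h3 N') _`), given `hκ : κ(E) ≤ κ'`. -/
theorem s35eq_hes_hfac (m : ℕ) {G : ↥(hs_E L h3 (N' * q))} (hG : G ≠ 0)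
    (hord : ∀ P : Place L ↥(hs_E L h3 (N' * q)), (m : ℤ) ∣ P.ord G)
    (hG1 : G ∈ ssm_fh_V1 h3 O h3O hπ N' q ∧ G ∉ (ssm_fh_V1 h3 O h3O hπ N' q).nonunits)
    (hG2 : G ∈ ssm_fh_V2 h3 O h3O hπ N' q hq3 hqN' ∧
      G ∉ (ssm_fh_V2 h3 O h3O hπ N' q hq3 hqN').nonunits)
    (hκ : s35kp_kappa O hπ (hs_E L h3 (N' * q)) (hsa_E_le_quotField h3 O (N' * q) h3O) ≤
      s35kp_kappa O hπ (hs_E L h3 N') (hsa_E_le_quotField h3 O N' h3O))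
    (hb1 : gq_IsBdd O L ((G : ↥(hs_E L h3 (N' * q))) : LaurentSeries L))
    (hb2 : gq_IsBdd O L
      ((ssm_fh_W h3 N' q hq3 hqN' G : ↥(hs_E L h3 (N' * q))) : LaurentSeries L))
    (hu1 : gq_res O L ⟨((G : ↥(hs_E L h3 (N' * q))) : LaurentSeries L), hb1⟩ ∈
      s35kp_kappa O hπ (hs_E L h3 N') (hsa_E_le_quotField h3 O N' h3O))
    (hu2 : gq_res O L
        ⟨((ssm_fh_W h3 N' q hq3 hqN' G : ↥(hs_E L h3 (N' * q))) : LaurentSeries L), hb2⟩ ∈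
      s35kp_kappa O hπ (hs_E L h3 N') (hsa_E_le_quotField h3 O N' h3O)) :
    (∀ 𝒪 : ValuationSubring
        ↥(s35kp_kappa O hπ (hs_E L h3 N') (hsa_E_le_quotField h3 O N' h3O)),
      (∀ c : ResidueField O, algebraMap (ResidueField O)
        ↥(s35kp_kappa O hπ (hs_E L h3 N') (hsa_E_le_quotField h3 O N' h3O)) c ∈ 𝒪) →
      (∀ z ∈ 𝒪, ∃ p : (ResidueField O)[X], p.Monic ∧ aeval z p ∈ 𝒪.nonunits) →
      ∃ ω e : ↥(s35kp_kappa O hπ (hs_E L h3 N') (hsa_E_le_quotField h3 O N' h3O)),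
        (⟨gq_res O L ⟨((G : ↥(hs_E L h3 (N' * q))) : LaurentSeries L), hb1⟩, hu1⟩ :
          ↥(s35kp_kappa O hπ (hs_E L h3 N') (hsa_E_le_quotField h3 O N' h3O))) = ω * e ^ m ∧
        ω ∈ 𝒪 ∧ ω⁻¹ ∈ 𝒪) ∧
    (∀ 𝒪 : ValuationSubring
        ↥(s35kp_kappa O hπ (hs_E L h3 N') (hsa_E_le_quotField h3 O N' h3O)),
      (∀ c : ResidueField O, algebraMap (ResidueField O)
        ↥(s35kp_kappa O hπ (hs_E L h3 N') (hsa_E_le_quotField h3 O N' h3O)) c ∈ 𝒪) →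
      (∀ z ∈ 𝒪, ∃ p : (ResidueField O)[X], p.Monic ∧ aeval z p ∈ 𝒪.nonunits) →
      ∃ ω e : ↥(s35kp_kappa O hπ (hs_E L h3 N') (hsa_E_le_quotField h3 O N' h3O)),
        (⟨gq_res O L
            ⟨((ssm_fh_W h3 N' q hq3 hqN' G : ↥(hs_E L h3 (N' * q))) : LaurentSeries L), hb2⟩,
            hu2⟩ :
          ↥(s35kp_kappa O hπ (hs_E L h3 N') (hsa_E_le_quotField h3 O N' h3O))) = ω * e ^ m ∧
        ω ∈ 𝒪 ∧ ω⁻¹ ∈ 𝒪) := by
  have heq : s35kp_kappa O hπ (hs_E L h3 (N' * q)) (hsa_E_le_quotField h3 O (N' * q) h3O) =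
      s35kp_kappa O hπ (hs_E L h3 N') (hsa_E_le_quotField h3 O N' h3O) :=
    le_antisymm hκ (s35eq_kappa_mono O hπ (ssm_alh_E_le L h3 (ssm_fh_hF9 h3) N' q) _ _)
  obtain ⟨h1, h2⟩ := s35eq_hes_hfacE L h3 O h3O N' q hq3 hqN' hπ ζ hζ m hG hord hG1 hG2
  exact ⟨s35eq_factor_transfer heq m _ ⟨⟨G, hG1.1⟩, rfl⟩ hu1 h1,
    s35eq_factor_transfer heq m _ ⟨⟨ssm_fh_W h3 N' q hq3 hqN' G, hG2.1⟩, rfl⟩ hu2 h2⟩

end HFac

end Fermat.Agent.S35
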