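/-
Project S35, cell **[ABEL-EQ]** (helper19): THE RESIDUE FIELD OF `V₁` IS THAT OF THE LOWER LEVEL.
Prefix `s35eq_`.

`κ(E) ≤ κ(E')` for `E = lg_E L (N' q)`, `E' = lg_E L N'` (resp. the Hesse fields): the residue field
of the Gauss valuation ring `V₁` of the cover is the residue field of the Gauss valuation ring of the
lower level (`f(V₁ / V') = 1`: `ssm_tw_res1` applied to `ssm_gl_data` / `ssm_glh_dataW`).  This is
the input `hκ` of `s35eq_leg_hfac` / `s35eq_hes_hfac`; the hypothesis-free versions are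
`s35eq_leg_hfac'` / `s35eq_hes_hfac'`.
-/
import Mathlib
import Fermat.Agent.S35.AbelEq.Hes
import Fermat.Agent.SS.Model.TwoPrimesLeg
import Fermat.Agent.SS.Model.TwoPrimesHesW

set_option autoImplicit false
set_option linter.style.haveILetI false
set_option linter.unusedSectionVars false
set_option linter.unusedVariables false

noncomputable section

namespace Fermat.Agent.S35

open Fermat.Agent.SS Fermat.Agent.JT3 IntermediateField ModularCurve IsLocalRing AlgebraicCurve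
  Polynomial

section Abs

variable {L : Type*} [Field L] (O : ValuationSubring L) [IsDiscreteValuationRing O] {π : O}
  (hπ : Irreducible π)

/-- if every element of the Gauss ring of `E` is congruent to an element of the Gauss ring of
`E' ≤ E`, the two residue fields coincide. -/
theorem s35eq_kappa_le_of_res {E' E : IntermediateField L (LaurentSeries L)} (hle : E' ≤ E)
    (hE' : E' ≤ gq_quotField O L) (hE : E ≤ gq_quotField O L)
    (hres : ∀ a : ↥E, a ∈ s35kp_V O hπ E hE → ∃ r : ↥E', r ∈ s35kp_V O hπ E' hE' ∧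
      a - IntermediateField.inclusion hle r ∈ (s35kp_V O hπ E hE).nonunits) :
    s35kp_kappa O hπ E hE ≤ s35kp_kappa O hπ E' hE' := by
  rintro y ⟨z, rfl⟩
  obtain ⟨r, hr, hzr⟩ := hres (z : ↥E) z.2
  have hrV : IntermediateField.inclusion hle r ∈ s35kp_V O hπ E hE := hr
  have h0 : s35kp_redHom O hπ E hE (z - ⟨IntermediateField.inclusion hle r, hrV⟩) = 0 :=
    (s35kp_redHom_eq_zero_iff O hπ E hE _).2 hzr
  rw [map_sub, sub_eq_zero] at h0
  rw [h0]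
  exact ⟨⟨r, hr⟩, rfl⟩

end Abs

section Data

variable {L : Type*} [Field L] [CharZero L] (O : ValuationSubring L)
  [IsDiscreteValuationRing O] {π : O} (hπ : Irreducible π)
variable (q : ℕ) [NeZero q] [hq : Fact q.Prime] [CharP (ResidueField O) q]
variable (E' E : IntermediateField L (LaurentSeries L)) (hle : E' ≤ E)
  (hE : E ≤ gq_quotField O L)

/-- `κ(E) ≤ κ(E')` from the data of the two-valuations lemma. -/
theorem s35eq_kappa_le_of_data (W : ↥E ≃+* ↥E)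
    {lam : ↥(gq_valSubOf π hπ.ne_zero hπ.maximalIdeal_eq E' (hle.trans hE))}
    (D : letI := ssm_gi_algebra hle
      letI := ssm_gi_algebraV hle (gq_valSubOf π hπ.ne_zero hπ.maximalIdeal_eq E' (hle.trans hE))
      ssm_tw_Data ↥E' ↥(gq_valSubOf π hπ.ne_zero hπ.maximalIdeal_eq E' (hle.trans hE)) q
        (gq_valSubOf π hπ.ne_zero hπ.maximalIdeal_eq E hE) W lam) :
    s35kp_kappa O hπ E hE ≤ s35kp_kappa O hπ E' (hle.trans hE) := by
  refine s35eq_kappa_le_of_res O hπ hle _ _ (fun a ha => ?_)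
  letI := ssm_gi_algebra hle
  letI := ssm_gi_algebraV hle (gq_valSubOf π hπ.ne_zero hπ.maximalIdeal_eq E' (hle.trans hE))
  haveI := ssm_gi_isScalarTower hle
    (gq_valSubOf π hπ.ne_zero hπ.maximalIdeal_eq E' (hle.trans hE))
  haveI : FiniteDimensional ↥E' ↥E := ssm_gi_finiteDimensional D.finrank_eq
  haveI : Algebra.IsSeparable ↥E' ↥E := ssm_gi_isSeparable
  obtain ⟨r, hr⟩ := ssm_tw_res1 D a ha
  exact ⟨(r : ↥E'), r.2, hr⟩

end Data

section Legendre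

variable {L : Type*} [Field L] [CharZero L] [Algebra L (AlgebraicClosure ℚ)]
  (O : ValuationSubring L) [IsDiscreteValuationRing O] {π : O} (hπ : Irreducible π)
variable (N' q : ℕ) [NeZero N'] [NeZero q] [hq : Fact q.Prime] [CharP (ResidueField O) q]
  (hq2 : ¬ 2 ∣ q) (hqN' : ¬ q ∣ N')

include hq2 hqN' in
/-- **`κ(E) ≤ κ(E')`, Legendre tower.** -/
theorem s35eq_leg_kappa_le :
    s35kp_kappa O hπ (lg_E L (N' * q)) (ssm_ga_E_le_quotField O (N' * q)) ≤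
      s35kp_kappa O hπ (lg_E L N') (ssm_ga_E_le_quotField O N') :=
  s35eq_kappa_le_of_data O hπ q (lg_E L N') (lg_E L (N' * q)) (ssm_al_E_le L N' q)
    (ssm_ga_E_le_quotField O (N' * q)) (ssm_gl_W L N' q hq2 hqN')
    (ssm_gl_data O hπ N' q hq2 hqN')

include hq2 hqN' in
/-- the reduction of a Gauss-bounded element of `E` lies in `κ' = κ(E')`. -/
theorem s35eq_leg_res_mem (G : ↥(lg_E L (N' * q)))
    (hb : gq_IsBdd O L ((G : ↥(lg_E L (N' * q))) : LaurentSeries L)) :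
    gq_res O L ⟨((G : ↥(lg_E L (N' * q))) : LaurentSeries L), hb⟩ ∈
      s35kp_kappa O hπ (lg_E L N') (ssm_ga_E_le_quotField O N') :=
  s35eq_leg_kappa_le O hπ N' q hq2 hqN'
    (s35kp_mem_kappa_of_bdd O hπ (lg_E L (N' * q)) (ssm_ga_E_le_quotField O (N' * q)) G.2 hb)

end Legendre

section Hesse

variable {L : Type*} [Field L] [CharZero L] [Algebra L (AlgebraicClosure ℚ)] (h3 : (3 : L) ≠ 0)
  (O : ValuationSubring L) [IsDiscreteValuationRing O] (h3O : IsUnit (3 : O)) {π : O}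
  (hπ : Irreducible π)
variable (N' q : ℕ) [NeZero N'] [NeZero q] [hq : Fact q.Prime] [CharP (ResidueField O) q]
  (hq3 : ¬ 3 ∣ q) (hqN' : ¬ q ∣ N')

include hq3 hqN' in
/-- **`κ(E) ≤ κ(E')`, Hesse tower.** -/
theorem s35eq_hes_kappa_le :
    s35kp_kappa O hπ (hs_E L h3 (N' * q)) (hsa_E_le_quotField h3 O (N' * q) h3O) ≤
      s35kp_kappa O hπ (hs_E L h3 N') (hsa_E_le_quotField h3 O N' h3O) :=
  s35eq_kappa_le_of_data O hπ q (hs_E L h3 N') (hs_E L h3 (N' * q))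
    (ssm_alh_E_le L h3 (ssm_fh_hF9 h3) N' q) (hsa_E_le_quotField h3 O (N' * q) h3O)
    (ssm_fh_W h3 N' q hq3 hqN')
    (ssm_glh_dataW h3 (ssm_fh_hF9 h3) O h3O hπ N' q hq3 hqN')

include hq3 hqN' in
/-- the reduction of a Gauss-bounded element of `E` lies in `κ' = κ(E')`. -/
theorem s35eq_hes_res_mem (G : ↥(hs_E L h3 (N' * q)))
    (hb : gq_IsBdd O L ((G : ↥(hs_E L h3 (N' * q))) : LaurentSeries L)) :
    gq_res O L ⟨((G : ↥(hs_E L h3 (N' * q))) : LaurentSeries L), hb⟩ ∈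
      s35kp_kappa O hπ (hs_E L h3 N') (hsa_E_le_quotField h3 O N' h3O) :=
  s35eq_hes_kappa_le h3 O h3O hπ N' q hq3 hqN'
    (s35kp_mem_kappa_of_bdd O hπ (hs_E L h3 (N' * q)) (hsa_E_le_quotField h3 O (N' * q) h3O)
      G.2 hb)

end Hesse

/-! ### the hypothesis-free factor forms -/

section HFacLeg

variable (L : Type) [Field L] [NumberField L] [Algebra L (AlgebraicClosure ℚ)]
  (O : ValuationSubring L) [IsDiscreteValuationRing O]
variable (N' q : ℕ) [NeZero N'] [NeZero q] [hq : Fact q.Prime] [CharP (ResidueField O) q]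
  (hq2 : ¬ 2 ∣ q) (hqN' : ¬ q ∣ N') (hπ : Irreducible ((q : ℕ) : ↥O))
  (ζ : L) (hζ : IsPrimitiveRoot ζ N')

include hζ in
set_option synthInstance.maxHeartbeats 400000 in
set_option maxHeartbeats 1600000 in
/-- **(E3), final form, Legendre tower**: `hfac₁`, `hfac₂` of helper13's `s35bf_leg` VERBATIM for
`u₁ := gq_res O L ⟨G, hb1⟩`, `u₂ := gq_res O L ⟨W G, hb2⟩` (membership proofs
`s35eq_leg_res_mem`). -/
theorem s35eq_leg_hfac' (m : ℕ) {G : ↥(lg_E L (N' * q))} (hG : G ≠ 0)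
    (hord : ∀ P : Place L ↥(lg_E L (N' * q)), (m : ℤ) ∣ P.ord G)
    (hG1 : G ∈ ssm_gl_V1 O hπ N' q ∧ G ∉ (ssm_gl_V1 O hπ N' q).nonunits)
    (hG2 : G ∈ ssm_gl_V2 O hπ N' q hq2 hqN' ∧ G ∉ (ssm_gl_V2 O hπ N' q hq2 hqN').nonunits)
    (hb1 : gq_IsBdd O L ((G : ↥(lg_E L (N' * q))) : LaurentSeries L))
    (hb2 : gq_IsBdd O L
      ((ssm_gl_W L N' q hq2 hqN' G : ↥(lg_E L (N' * q))) : LaurentSeries L)) :
    (∀ 𝒪 : ValuationSubring ↥(s35kp_kappa O hπ (lg_E L N') (ssm_ga_E_le_quotField O N')),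
      (∀ c : ResidueField O, algebraMap (ResidueField O)
        ↥(s35kp_kappa O hπ (lg_E L N') (ssm_ga_E_le_quotField O N')) c ∈ 𝒪) →
      (∀ z ∈ 𝒪, ∃ p : (ResidueField O)[X], p.Monic ∧ aeval z p ∈ 𝒪.nonunits) →
      ∃ ω e : ↥(s35kp_kappa O hπ (lg_E L N') (ssm_ga_E_le_quotField O N')),
        (⟨gq_res O L ⟨((G : ↥(lg_E L (N' * q))) : LaurentSeries L), hb1⟩,
            s35eq_leg_res_mem O hπ N' q hq2 hqN' G hb1⟩ :
          ↥(s35kp_kappa O hπ (lg_E L N') (ssm_ga_E_le_quotField O N'))) = ω * e ^ m ∧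
        ω ∈ 𝒪 ∧ ω⁻¹ ∈ 𝒪) ∧
    (∀ 𝒪 : ValuationSubring ↥(s35kp_kappa O hπ (lg_E L N') (ssm_ga_E_le_quotField O N')),
      (∀ c : ResidueField O, algebraMap (ResidueField O)
        ↥(s35kp_kappa O hπ (lg_E L N') (ssm_ga_E_le_quotField O N')) c ∈ 𝒪) →
      (∀ z ∈ 𝒪, ∃ p : (ResidueField O)[X], p.Monic ∧ aeval z p ∈ 𝒪.nonunits) →
      ∃ ω e : ↥(s35kp_kappa O hπ (lg_E L N') (ssm_ga_E_le_quotField O N')),
        (⟨gq_res O L
            ⟨((ssm_gl_W L N' q hq2 hqN' G : ↥(lg_E L (N' * q))) : LaurentSeries L), hb2⟩,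
            s35eq_leg_res_mem O hπ N' q hq2 hqN' (ssm_gl_W L N' q hq2 hqN' G) hb2⟩ :
          ↥(s35kp_kappa O hπ (lg_E L N') (ssm_ga_E_le_quotField O N'))) = ω * e ^ m ∧
        ω ∈ 𝒪 ∧ ω⁻¹ ∈ 𝒪) :=
  s35eq_leg_hfac L O N' q hq2 hqN' hπ ζ hζ m hG hord hG1 hG2
    (s35eq_leg_kappa_le O hπ N' q hq2 hqN') hb1 hb2 _ _

end HFacLeg

section HFacHes

variable (L : Type) [Field L] [NumberField L] [Algebra L (AlgebraicClosure ℚ)]
  (h3 : (3 : L) ≠ 0) (O : ValuationSubring L) [IsDiscreteValuationRing O] (h3O : IsUnit (3 : O))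
variable (N' q : ℕ) [NeZero N'] [NeZero q] [hq : Fact q.Prime] [CharP (ResidueField O) q]
  (hq3 : ¬ 3 ∣ q) (hqN' : ¬ q ∣ N') (hπ : Irreducible ((q : ℕ) : ↥O))
  (ζ : L) (hζ : IsPrimitiveRoot ζ (3 * N'))

include hζ in
set_option synthInstance.maxHeartbeats 400000 in
set_option maxHeartbeats 1600000 in
/-- **(E3), final form, Hesse tower.** -/
theorem s35eq_hes_hfac' (m : ℕ) {G : ↥(hs_E L h3 (N' * q))} (hG : G ≠ 0)
    (hord : ∀ P : Place L ↥(hs_E L h3 (N' * q)), (m : ℤ) ∣ P.ord G)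
    (hG1 : G ∈ ssm_fh_V1 h3 O h3O hπ N' q ∧ G ∉ (ssm_fh_V1 h3 O h3O hπ N' q).nonunits)
    (hG2 : G ∈ ssm_fh_V2 h3 O h3O hπ N' q hq3 hqN' ∧
      G ∉ (ssm_fh_V2 h3 O h3O hπ N' q hq3 hqN').nonunits)
    (hb1 : gq_IsBdd O L ((G : ↥(hs_E L h3 (N' * q))) : LaurentSeries L))
    (hb2 : gq_IsBdd O L
      ((ssm_fh_W h3 N' q hq3 hqN' G : ↥(hs_E L h3 (N' * q))) : LaurentSeries L)) :
    (∀ 𝒪 : ValuationSubring
        ↥(s35kp_kappa O hπ (hs_E L h3 N') (hsa_E_le_quotField h3 O N' h3O)),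
      (∀ c : ResidueField O, algebraMap (ResidueField O)
        ↥(s35kp_kappa O hπ (hs_E L h3 N') (hsa_E_le_quotField h3 O N' h3O)) c ∈ 𝒪) →
      (∀ z ∈ 𝒪, ∃ p : (ResidueField O)[X], p.Monic ∧ aeval z p ∈ 𝒪.nonunits) →
      ∃ ω e : ↥(s35kp_kappa O hπ (hs_E L h3 N') (hsa_E_le_quotField h3 O N' h3O)),
        (⟨gq_res O L ⟨((G : ↥(hs_E L h3 (N' * q))) : LaurentSeries L), hb1⟩,
            s35eq_hes_res_mem h3 O h3O hπ N' q hq3 hqN' G hb1⟩ :
          ↥(s35kp_kappa O hπ (hs_E L h3 N') (hsa_E_le_quotField h3 O N' h3O))) = ω * e ^ m ∧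
        ω ∈ 𝒪 ∧ ω⁻¹ ∈ 𝒪) ∧
    (∀ 𝒪 : ValuationSubring
        ↥(s35kp_kappa O hπ (hs_E L h3 N') (hsa_E_le_quotField h3 O N' h3O)),
      (∀ c : ResidueField O, algebraMap (ResidueField O)
        ↥(s35kp_kappa O hπ (hs_E L h3 N') (hsa_E_le_quotField h3 O N' h3O)) c ∈ 𝒪) →
      (∀ z ∈ 𝒪, ∃ p : (ResidueField O)[X], p.Monic ∧ aeval z p ∈ 𝒪.nonunits) →
      ∃ ω e : ↥(s35kp_kappa O hπ (hs_E L h3 N') (hsa_E_le_quotField h3 O N' h3O)),
        (⟨gq_res O L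
            ⟨((ssm_fh_W h3 N' q hq3 hqN' G : ↥(hs_E L h3 (N' * q))) : LaurentSeries L), hb2⟩,
            s35eq_hes_res_mem h3 O h3O hπ N' q hq3 hqN' (ssm_fh_W h3 N' q hq3 hqN' G) hb2⟩ :
          ↥(s35kp_kappa O hπ (hs_E L h3 N') (hsa_E_le_quotField h3 O N' h3O))) = ω * e ^ m ∧
        ω ∈ 𝒪 ∧ ω⁻¹ ∈ 𝒪) :=
  s35eq_hes_hfac L h3 O h3O N' q hq3 hqN' hπ ζ hζ m hG hord hG1 hG2
    (s35eq_hes_kappa_le h3 O h3O hπ N' q hq3 hqN') hb1 hb2 _ _

end HFacHes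

end Fermat.Agent.S35
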