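/-
Project S35, cell **[ABEL-EQ]** (helper19): the root of unity of the NF wrappers.  Prefix `s35eq_`.

* `s35eq_root_nf` : for `A ∣ q` in `Q̄` and `q ∤ M` there is a primitive `M`-th root of unity
  `ζ' ∈ Q̄` fixed by the inertia group of `A` which is a primitive `M`-th root of unity of every
  level `L1 ∋ ζ'` (the binder form of `tori_sfdi_leg` / `tori_sfdi_hes` at `L := ↥L1`);
* `s35eq_not_dvd_three_mul` : `q ≠ 3`, `q ∤ N'` ⟹ `q ∤ 3 N'`.
-/
import Mathlib
import Fermat.Agent.S35.DescU.InertiaField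

set_option autoImplicit false
set_option linter.style.haveILetI false
set_option linter.unusedSectionVars false
set_option linter.unusedVariables false

namespace Fermat.Agent.S35

local notation "GQ" => (AlgebraicClosure ℚ ≃ₐ[ℚ] AlgebraicClosure ℚ)
local notation "Qb" => AlgebraicClosure ℚ

theorem s35eq_root_nf (A : ValuationSubring Qb) (q : ℕ) [hq : Fact q.Prime]
    (hA : A.LiesOverPrime q) (M : ℕ) [NeZero M] (hqM : ¬ q ∣ M) :
    ∃ ζ' : Qb, IsPrimitiveRoot ζ' M ∧ (∀ s ∈ A.inertiaSubgroupIn ℚ, s ζ' = ζ') ∧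
      ∀ (L1 : IntermediateField ℚ Qb) (h : ζ' ∈ L1), IsPrimitiveRoot (⟨ζ', h⟩ : ↥L1) M := by
  obtain ⟨ζ', hζ'⟩ := HasEnoughRootsOfUnity.exists_primitiveRoot Qb M
  refine ⟨ζ', hζ', fun s hs => s35d_root_fixed A q hA hqM hζ'.pow_eq_one hs, fun L1 h => ?_⟩
  exact (IsPrimitiveRoot.map_iff_of_injective (f := algebraMap ↥L1 Qb)
    (FaithfulSMul.algebraMap_injective ↥L1 Qb)).1 hζ'

theorem s35eq_not_dvd_three_mul {q N' : ℕ} (hq : q.Prime) (hq3 : ¬ 3 ∣ q) (hqN' : ¬ q ∣ N') :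
    ¬ q ∣ 3 * N' := by
  intro h
  rcases (Nat.Prime.dvd_mul hq).1 h with h | h
  · have : q = 3 := (Nat.prime_dvd_prime_iff_eq hq Nat.prime_three).1 h
    exact hq3 (this ▸ dvd_rfl)
  · exact hqN' h

end Fermat.Agent.S35
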